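import Mathlib
import Fermat.Prelude.Def_Algebra_PatchingDatum

/-!
# S57, final bookkeeping (helper117)

If the patched module `L.N` of a patching level is free over `Λ = 𝒪⟦X₁,…,X_r⟧`
then `M` is free and faithful over `R` and the kernel of `L.ψ` is generated by the `L.φ (X i)`.
This step does not use the relation ideal nor the elements `L.b`.
-/

set_option autoImplicit false

namespace Fermat.Agent.S57.helper117

section Conclude

variable {𝒪 : Type} [CommRing 𝒪] {r : ℕ} {R : Type} [CommRing R] [Algebra 𝒪 R]
  {M : Type} [AddCommGroup M] [Module R M] {J : Ideal (MvPowerSeries (Fin r) 𝒪)}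

/-- Coordinates of an element of `I • ⊤` with respect to a basis lie in `I`. -/
theorem repr_mem_of_mem_smul_top {S : Type*} [CommRing S] {N : Type*} [AddCommGroup N] [Module S N]
    {ι : Type*} (e : Module.Basis ι S N) (I : Ideal S) {x : N}
    (hx : x ∈ I • (⊤ : Submodule S N)) (j : ι) : e.repr x j ∈ I := by
  refine Submodule.smul_induction_on hx ?_ ?_
  · intro a ha n _
    rw [map_smul, Finsupp.smul_apply, smul_eq_mul]
    exact I.mul_mem_right _ ha
  · intro x y hx hy
    rw [map_add, Finsupp.add_apply]
    exact I.add_mem hx hy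

/-- The images of `L.φ (X i)` lie in the kernel of `L.ψ`. -/
theorem span_le_ker (L : Algebra.PatchingLevel 𝒪 r R M J) :
    Ideal.span (Set.range fun i : Fin r => L.φ (MvPowerSeries.X i)) ≤ RingHom.ker L.ψ := by
  rw [Ideal.span_le]
  rintro _ ⟨i, rfl⟩
  exact L.ψ_φ_X i

/-- Final bookkeeping for S57: freeness of `L.N` over the power series ring gives everything. -/
theorem conclusion_of_free [Nontrivial M] (L : Algebra.PatchingLevel 𝒪 r R M J)
    (hfree : Module.Free (MvPowerSeries (Fin r) 𝒪) L.N) :
    Module.Free R M ∧ Module.annihilator R M = ⊥ ∧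
      RingHom.ker L.ψ = Ideal.span (Set.range fun i : Fin r => L.φ (MvPowerSeries.X i)) := by
  classical
  set I : Ideal (MvPowerSeries (Fin r) 𝒪) :=
    Ideal.span (Set.range fun i : Fin r => L.φ (MvPowerSeries.X i)) with hI
  have hIker : I ≤ RingHom.ker L.ψ := span_le_ker L
  let ι := Module.Free.ChooseBasisIndex (MvPowerSeries (Fin r) 𝒪) L.N
  let e : Module.Basis ι (MvPowerSeries (Fin r) 𝒪) L.N :=
    Module.Free.chooseBasis (MvPowerSeries (Fin r) 𝒪) L.N
  -- key: a finite combination of basis vectors killed by `π` has coefficients in `I`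
  have key : ∀ (s : Finset ι) (c : ι → MvPowerSeries (Fin r) 𝒪),
      L.π (∑ i ∈ s, c i • e i) = 0 → ∀ i ∈ s, c i ∈ I := by
    intro s c h i hi
    have hx := (L.ker_π _).1 h
    have := repr_mem_of_mem_smul_top e I hx i
    rw [map_sum] at this
    simp only [map_smul, Module.Basis.repr_self, Finsupp.coe_finsetSum, Finsupp.coe_smul,
      Finset.sum_apply, Pi.smul_apply, smul_eq_mul] at this
    rw [Finset.sum_eq_single i] at this
    · simpa using this
    · intro b _ hb
      simp [hb]
    · intro h'
      exact absurd hi h'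
  have hπsum : ∀ (s : Finset ι) (c : ι → MvPowerSeries (Fin r) 𝒪),
      L.π (∑ i ∈ s, c i • e i) = ∑ i ∈ s, L.ψ (c i) • L.π (e i) := by
    intro s c
    rw [map_sum]
    exact Finset.sum_congr rfl fun i _ => L.π_smul _ _
  -- linear independence of the images of the basis
  have hli : LinearIndependent R (fun i : ι => L.π (e i)) := by
    rw [linearIndependent_iff']
    intro s g hg i hi
    choose c hc using fun i => L.ψ_surjective (g i)
    have h0 : L.π (∑ i ∈ s, c i • e i) = 0 := by
      rw [hπsum, ← hg]
      exact Finset.sum_congr rfl fun i _ => by rw [hc]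
    have := hIker (key s c h0 i hi)
    rw [RingHom.mem_ker] at this
    rw [← hc i]
    exact this
  -- spanning
  have hsp : ⊤ ≤ Submodule.span R (Set.range fun i : ι => L.π (e i)) := by
    rintro m -
    obtain ⟨x, rfl⟩ := L.π_surjective m
    have hx : x ∈ Submodule.span (MvPowerSeries (Fin r) 𝒪) (Set.range e) := by
      rw [e.span_eq]; trivial
    induction hx using Submodule.span_induction with
    | mem x hx =>
      obtain ⟨j, rfl⟩ := hx
      exact Submodule.subset_span ⟨j, rfl⟩
    | zero => rw [map_zero]; exact Submodule.zero_mem _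
    | add x y _ _ hx hy => rw [map_add]; exact Submodule.add_mem _ hx hy
    | smul a x _ hx => rw [L.π_smul]; exact Submodule.smul_mem _ _ hx
  have hfreeM : Module.Free R M := Module.Free.of_basis (Module.Basis.mk hli hsp)
  refine ⟨hfreeM, ?_, ?_⟩
  · exact Module.annihilator_eq_bot.mpr inferInstance
  · refine le_antisymm ?_ hIker
    intro f hf
    rw [RingHom.mem_ker] at hf
    have hN : Nontrivial L.N := by
      by_contra hN
      rw [not_nontrivial_iff_subsingleton] at hN
      obtain ⟨m, hm⟩ := exists_ne (0 : M)
      obtain ⟨x, rfl⟩ := L.π_surjective m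
      rw [Subsingleton.elim x 0, map_zero] at hm
      exact hm rfl
    have hne : Nonempty ι := by
      by_contra hne
      rw [not_nonempty_iff] at hne
      have : Subsingleton L.N := e.repr.toEquiv.subsingleton
      exact not_subsingleton L.N this
    obtain ⟨j⟩ := hne
    have h0 : L.π (∑ i ∈ ({j} : Finset ι), (fun _ => f) i • e i) = 0 := by
      rw [hπsum]
      simp [hf]
    exact key {j} (fun _ => f) h0 j (Finset.mem_singleton_self j)

end Conclude

end Fermat.Agent.S57.helper117
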