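import Mathlib

/-!
# S57, core commutative algebra (helper117), via the Rees theorem

`free_of_isWeaklyRegular`: over a Noetherian local ring `B` whose maximal ideal is generated by
`n` elements, a finite module `N` with a weakly regular sequence of length `n` inside the
maximal ideal is free.
-/

set_option autoImplicit false

namespace Fermat.Agent.S57.helper117

open IsLocalRing RingTheory.Sequence CategoryTheory Abelian Pointwise

universe u v

section PieceA

variable {B : Type u} [CommRing B] [IsNoetherianRing B] [IsLocalRing B]
  {N : Type v} [AddCommGroup N] [Module B N] [Module.Finite B N] [Nontrivial N]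

/-- Prime avoidance: a regular element of the maximal ideal outside its square. -/
theorem exists_regular_not_mem_sq {a : B} (ha : a ∈ maximalIdeal B) (hareg : IsSMulRegular N a) :
    ∃ x ∈ maximalIdeal B, x ∉ (maximalIdeal B) ^ 2 ∧ IsSMulRegular N x := by
  by_contra! h
  have hsub : ((maximalIdeal B : Ideal B) : Set B) ⊆
      ⋃ i ∈ (insert ((maximalIdeal B) ^ 2) (associatedPrimes B N)), ((id i : Ideal B) : Set B) := by
    intro x hx
    by_cases hx2 : x ∈ (maximalIdeal B) ^ 2
    · exact Set.mem_biUnion (Set.mem_insert _ _) hx2
    · have hnr : x ∈ {r : B | IsSMulRegular N r}ᶜ := h x hx hx2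
      rw [← biUnion_associatedPrimes_eq_compl_regular B N] at hnr
      obtain ⟨p, hp, hxp⟩ := Set.mem_iUnion₂.1 hnr
      exact Set.mem_biUnion (Set.mem_insert_of_mem _ hp) hxp
  have hfin : (insert ((maximalIdeal B) ^ 2) (associatedPrimes B N)).Finite :=
    (associatedPrimes.finite B N).insert _
  obtain ⟨p, hp, hle⟩ := (Ideal.subset_union_prime_finite hfin (f := id)
    ((maximalIdeal B) ^ 2) ((maximalIdeal B) ^ 2) (fun i hi h1 _ => by
      rcases hi with rfl | hi
      · exact absurd rfl h1
      · exact IsAssociatedPrime.isPrime hi)).1 hsub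
  rcases hp with rfl | hp
  · -- `m ≤ m ^ 2` forces `m = ⊥` by Nakayama
    have hbot : maximalIdeal B = ⊥ := by
      apply Submodule.eq_bot_of_le_smul_of_le_jacobson_bot (maximalIdeal B) (maximalIdeal B)
        (IsNoetherian.noetherian _)
      · simpa [sq] using hle
      · exact IsLocalRing.maximalIdeal_le_jacobson _
    rw [hbot, Ideal.mem_bot] at ha
    subst ha
    exact not_subsingleton N (IsSMulRegular.zero_iff_subsingleton.1 hareg)
  · have : a ∈ {r : B | IsSMulRegular N r}ᶜ := by
      rw [← biUnion_associatedPrimes_eq_compl_regular B N]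
      exact Set.mem_biUnion hp (hle ha)
    exact this hareg

end PieceA

section PieceB

variable {B : Type u} [CommRing B] [IsLocalRing B]

/-- If `x ∈ m \ m ^ 2` and `m` is generated by the finite set `s`, then `x` can replace one of
the generators. -/
theorem exists_finset_insert_span (s : Finset B) (hs : Ideal.span (s : Set B) = maximalIdeal B)
    {x : B} (hx : x ∈ maximalIdeal B) (hx2 : x ∉ maximalIdeal B ^ 2) :
    ∃ t : Finset B, t.card + 1 ≤ s.card ∧
      Ideal.span (insert x (t : Set B)) = maximalIdeal B := by
  classical
  have hxs : x ∈ Submodule.span B (s : Set B) := by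
    have : x ∈ Ideal.span (s : Set B) := hs ▸ hx
    exact this
  obtain ⟨f, -, hf⟩ := Submodule.mem_span_finset.1 hxs
  have hsm : ∀ g ∈ s, g ∈ maximalIdeal B := fun g hg => hs ▸ Ideal.subset_span hg
  -- some coefficient is a unit
  have hex : ∃ g ∈ s, IsUnit (f g) := by
    by_contra! hcon
    apply hx2
    rw [← hf, sq]
    refine Ideal.sum_mem _ fun g hg => ?_
    rw [smul_eq_mul]
    exact Ideal.mul_mem_mul ((IsLocalRing.mem_maximalIdeal _).2 (hcon g hg)) (hsm g hg)
  obtain ⟨g, hg, hu⟩ := hex
  refine ⟨s.erase g, ?_, ?_⟩
  · rw [Finset.card_erase_of_mem hg]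
    have := Finset.card_pos.2 ⟨g, hg⟩
    omega
  · apply le_antisymm
    · rw [Ideal.span_le]
      intro y hy
      rcases hy with rfl | hy
      · exact hx
      · exact hsm y (Finset.mem_of_mem_erase (Finset.mem_coe.1 hy))
    · rw [← hs, Ideal.span_le]
      have hgT : g ∈ Ideal.span (insert x ((s.erase g : Finset B) : Set B)) := by
        rw [← Ideal.unit_mul_mem_iff_mem _ hu]
        have hsum : f g * g = x - ∑ a ∈ s.erase g, f a • a := by
          rw [← hf, ← Finset.add_sum_erase s _ hg, smul_eq_mul]
          ring
        rw [hsum]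
        refine Ideal.sub_mem _ (Ideal.subset_span (Set.mem_insert _ _)) ?_
        refine Ideal.sum_mem _ fun a ha => ?_
        rw [smul_eq_mul]
        exact Ideal.mul_mem_left _ _ (Ideal.subset_span (Set.mem_insert_of_mem _ ha))
      intro y hy
      by_cases hyg : y = g
      · subst hyg; exact hgT
      · exact Ideal.subset_span (Set.mem_insert_of_mem _
          (Finset.mem_coe.2 (Finset.mem_erase.2 ⟨hyg, hy⟩)))

end PieceB

section PieceC

variable {B : Type u} [CommRing B] [IsNoetherianRing B] [IsLocalRing B]
  {N : Type u} [AddCommGroup N] [Module B N] [Module.Finite B N] [Nontrivial N]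

omit [IsNoetherianRing B] in
theorem maximalIdeal_smul_top_lt_top (N : Type v) [AddCommGroup N] [Module B N] [Module.Finite B N]
    [Nontrivial N] : maximalIdeal B • (⊤ : Submodule B N) < ⊤ :=
  Ne.lt_top (Ne.symm (Submodule.top_ne_ideal_smul_of_le_jacobson_annihilator
    (IsLocalRing.maximalIdeal_le_jacobson _)))

/-- Depth drops by exactly one modulo a regular element (consequence of the Rees theorem):
if `N` has a regular sequence of length `n + 1` in the maximal ideal and `x` is any `N`-regular
element of the maximal ideal, then `N ⧸ x N` has a regular sequence of length `n`. -/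
theorem exists_isRegular_quotSMulTop (rs : List B) (hmem : ∀ r ∈ rs, r ∈ maximalIdeal B)
    (hreg : IsRegular N rs) {x : B} (hx : x ∈ maximalIdeal B) (hxreg : IsSMulRegular N x)
    (n : ℕ) (hn : rs.length = n + 1) :
    ∃ rs' : List B, rs'.length = n ∧ (∀ r ∈ rs', r ∈ maximalIdeal B) ∧
      IsRegular (QuotSMulTop x N) rs' := by
  let k : ModuleCat.{u} B := ModuleCat.of B (B ⧸ maximalIdeal B)
  have hsupp : Module.support B k = PrimeSpectrum.zeroLocus (maximalIdeal B) := by
    rw [Module.support_eq_zeroLocus, Ideal.annihilator_quotient]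
  let NN : ModuleCat.{u} B := ModuleCat.of B N
  have h1 : ∀ i < rs.length, Subsingleton (Ext k NN i) :=
    ModuleCat.subsingleton_ext_of_exists_isRegular (maximalIdeal B) k hsupp.subset NN
      (maximalIdeal_smul_top_lt_top N) rs hmem hreg
  have := nontrivial_quotSMulTop_of_mem_maximalIdeal N hx
  have h_ext' : ∀ i < n, Subsingleton (Ext k (ModuleCat.of B (QuotSMulTop x N)) i) := by
    intro i hi
    have zero1 := AddCommGrpCat.isZero_of_iff_subsingleton.mpr (h1 i (by omega))
    have zero2 := AddCommGrpCat.isZero_of_iff_subsingleton.mpr (h1 (i + 1) (by omega))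
    exact AddCommGrpCat.subsingleton_of_isZero <| ShortComplex.Exact.isZero_of_both_zeros
      ((Ext.covariant_sequence_exact₃' k (IsSMulRegular.smulShortComplex_shortExact
        (M := NN) hxreg)) i (i + 1) rfl)
      (zero1.eq_zero_of_src _) (zero2.eq_zero_of_tgt _)
  exact ModuleCat.exists_isRegular_of_exists_subsingleton_ext (maximalIdeal B) n
    (ModuleCat.of B (QuotSMulTop x N)) (maximalIdeal_smul_top_lt_top (QuotSMulTop x N)) k hsupp h_ext'

end PieceC

section PieceD

/-- **Maximal Cohen–Macaulay modules over regular local rings are free**, in the form: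
if the maximal ideal of the Noetherian local ring `B` is generated by (at most) `n` elements and
the finite `B`-module `N` has a weakly regular sequence of length `n` in the maximal ideal,
then `N` is free. -/
theorem free_of_isWeaklyRegular : ∀ (n : ℕ) (B : Type u) [CommRing B] [IsNoetherianRing B]
    [IsLocalRing B] (N : Type u) [AddCommGroup N] [Module B N] [Module.Finite B N]
    (rs : List B), rs.length = n → (∀ r ∈ rs, r ∈ maximalIdeal B) → IsWeaklyRegular N rs →
    ∀ (s : Finset B), s.card ≤ n → Ideal.span (s : Set B) = maximalIdeal B →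
    Module.Free B N := by
  intro n
  induction n with
  | zero =>
    intro B _ _ _ N _ _ _ rs _ _ _ s hs hspan
    have hs0 : s = ∅ := Finset.card_eq_zero.1 (Nat.le_zero.1 hs)
    subst hs0
    have hbot : maximalIdeal B = ⊥ := by rw [← hspan]; simp
    have hfield : IsField B := IsLocalRing.isField_iff_maximalIdeal_eq.2 hbot
    let _ := hfield.toField
    infer_instance
  | succ n ih =>
    intro B _ _ _ N _ _ _ rs hlen hmem hreg s hs hspan
    rcases subsingleton_or_nontrivial N with hN | hN
    · infer_instance
    · match rs, hlen, hmem, hreg with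
      | [], hlen, _, _ => simp at hlen
      | a :: rs₀, hlen, hmem, hreg =>
        have ha : a ∈ maximalIdeal B := hmem a List.mem_cons_self
        have hareg : IsSMulRegular N a := ((isWeaklyRegular_cons_iff N a rs₀).1 hreg).1
        obtain ⟨x, hx, hx2, hxreg⟩ := exists_regular_not_mem_sq ha hareg
        have hreg' : IsRegular N (a :: rs₀) :=
          IsRegular.of_isWeaklyRegular_of_mem_maximalIdeal N hmem hreg
        obtain ⟨rs', hlen', hmem', hreg''⟩ :=
          exists_isRegular_quotSMulTop (a :: rs₀) hmem hreg' hx hxreg n hlen
        obtain ⟨t, htcard, htspan⟩ := exists_finset_insert_span s hspan hx hx2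
        -- the quotient ring
        have hne : Ideal.span {x} ≠ (⊤ : Ideal B) := fun h =>
          (Ideal.IsMaximal.ne_top (IsLocalRing.maximalIdeal.isMaximal B))
            (top_le_iff.1 (h ▸ (Ideal.span_singleton_le_iff_mem _).2 hx))
        have : Nontrivial (B ⧸ Ideal.span {x}) := Ideal.Quotient.nontrivial_iff.mpr hne
        have : IsLocalRing (B ⧸ Ideal.span {x}) :=
          IsLocalRing.of_surjective' (Ideal.Quotient.mk _) Ideal.Quotient.mk_surjective
        have hmax : (maximalIdeal B).map (Ideal.Quotient.mk (Ideal.span {x})) =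
            maximalIdeal (B ⧸ Ideal.span {x}) :=
          IsLocalRing.map_maximalIdeal_of_surjective _ Ideal.Quotient.mk_surjective
        have : Module.Finite (B ⧸ Ideal.span {x}) (QuotSMulTop x N) :=
          Module.Finite.of_restrictScalars_finite B _ _
        have hfree' : Module.Free (B ⧸ Ideal.span {x}) (QuotSMulTop x N) := by
          classical
          refine ih (B ⧸ Ideal.span {x}) (QuotSMulTop x N)
            (rs'.map (Ideal.Quotient.mk (Ideal.span {x}))) (by simpa using hlen') ?_ ?_
            (t.image (Ideal.Quotient.mk (Ideal.span {x}))) ?_ ?_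
          · intro r hr
            obtain ⟨r', hr', rfl⟩ := List.mem_map.1 hr
            rw [← hmax]
            exact Ideal.mem_map_of_mem _ (hmem' r' hr')
          · exact (isWeaklyRegular_map_algebraMap_iff (B ⧸ Ideal.span {x}) (QuotSMulTop x N)
              rs').2 hreg''.toIsWeaklyRegular
          · exact (Finset.card_image_le).trans (by omega)
          · rw [← hmax, ← htspan, Ideal.map_span, Finset.coe_image, Set.image_insert_eq]
            have h0 : Ideal.Quotient.mk (Ideal.span {x}) x = 0 :=
              Ideal.Quotient.eq_zero_iff_mem.2 (Ideal.mem_span_singleton_self x)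
            rw [h0]
            exact (Ideal.span_insert_zero).symm
        have := Module.finitePresentation_of_finite B N
        have hjac : x ∈ (⊥ : Ideal B).jacobson := by
          rw [IsLocalRing.jacobson_eq_maximalIdeal (⊥ : Ideal B) bot_ne_top]
          exact hx
        exact (Module.free_quotSMulTop_iff_free B N hjac hxreg).1 hfree'

end PieceD

end Fermat.Agent.S57.helper117
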