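import Mathlib
import Fermat.Prelude.Def_Algebra_PatchingDatum
import Fermat.Agent.S57.helper117_Core

/-!
# S57: the concrete power-series input and the transport to the patched module (helper117)

* Sections `PS`, `Equiv`, `Mv` are a verbatim copy (under this seat's namespace, so that the
  closure of `S57.lean` only consists of files of one seat) of helper837's
  `Fermat/Agent/S57/helper837_RegSeq.lean`: the sequence `X_0, ..., X_{r-1}, C ϖ` is weakly regular
  on `MvPowerSeries (Fin r) 𝒪` and generates the maximal ideal.  All credit to helper837.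
* Section `Transport`: the patched module `L.N` of a patching level with trivial relation ideal
  is finite and free over `MvPowerSeries (Fin r) 𝒪`.
-/

set_option autoImplicit false

namespace Fermat.Agent.S57.helper117

open RingTheory.Sequence

section PS

variable {A : Type*} [CommRing A]

lemma isSMulRegular_X : IsSMulRegular (PowerSeries A) (PowerSeries.X : PowerSeries A) := by
  intro a b h
  exact PowerSeries.X_mul_cancel h

/-- constant coefficient as a semilinear map -/
noncomputable def quotXHom :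
    QuotSMulTop (PowerSeries.X : PowerSeries A) (PowerSeries A) →ₛₗ[PowerSeries.constantCoeff (R := A)] A :=
  Submodule.liftQ _ (PowerSeries.constantCoeff (R := A)).toSemilinearMap (by
    intro f hf
    rw [Submodule.mem_smul_pointwise_iff_exists] at hf
    obtain ⟨g, -, rfl⟩ := hf
    simp)

lemma quotXHom_mk (f : PowerSeries A) :
    quotXHom (Submodule.Quotient.mk f) = PowerSeries.constantCoeff f := rfl

lemma quotXHom_bijective : Function.Bijective (quotXHom (A := A)) := by
  constructor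
  · rw [injective_iff_map_eq_zero]
    intro x hx
    induction x using Submodule.Quotient.induction_on with
    | _ f =>
      rw [quotXHom_mk] at hx
      rw [Submodule.Quotient.mk_eq_zero]
      obtain ⟨g, rfl⟩ := PowerSeries.X_dvd_iff.mpr hx
      exact Submodule.smul_mem_pointwise_smul g _ _ trivial
  · intro a
    exact ⟨Submodule.Quotient.mk (PowerSeries.C a), by rw [quotXHom_mk]; simp⟩

noncomputable def quotXEquiv :
    QuotSMulTop (PowerSeries.X : PowerSeries A) (PowerSeries A) ≃+ A :=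
  AddEquiv.ofBijective quotXHom.toAddMonoidHom quotXHom_bijective

lemma quotXEquiv_smul (a : A) (x : QuotSMulTop (PowerSeries.X : PowerSeries A) (PowerSeries A)) :
    quotXEquiv (PowerSeries.C a • x) = a • quotXEquiv x := by
  show quotXHom (PowerSeries.C a • x) = a • quotXHom x
  rw [map_smulₛₗ]
  simp

lemma isWeaklyRegular_X_cons {rs : List A} (h : IsWeaklyRegular A rs) :
    IsWeaklyRegular (PowerSeries A) (PowerSeries.X :: rs.map PowerSeries.C) := by
  refine IsWeaklyRegular.cons isSMulRegular_X ?_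
  refine (AddEquiv.isWeaklyRegular_congr (e := quotXEquiv (A := A)) ?_).mpr h
  exact List.forall₂_map_left_iff.mpr <| List.forall₂_same.mpr fun r _ x => quotXEquiv_smul r x

lemma ofList_X_cons (rs : List A) :
    Ideal.ofList (PowerSeries.X :: rs.map PowerSeries.C) =
      (Ideal.ofList rs).comap (PowerSeries.constantCoeff (R := A)) := by
  rw [Ideal.ofList_cons, ← Ideal.map_ofList]
  apply le_antisymm
  · rw [sup_le_iff]
    constructor
    · rw [Ideal.span_le]
      intro f hf
      rw [Set.mem_singleton_iff] at hf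
      subst hf
      simp
    · rw [Ideal.map_le_iff_le_comap]
      intro a ha
      simpa using ha
  · intro f hf
    have h1 : f = (f - PowerSeries.C (PowerSeries.constantCoeff f)) +
        PowerSeries.C (PowerSeries.constantCoeff f) := by ring
    rw [h1]
    refine Ideal.add_mem _ (Ideal.mem_sup_left ?_) (Ideal.mem_sup_right ?_)
    · rw [Ideal.mem_span_singleton, PowerSeries.X_dvd_iff]
      simp
    · exact Ideal.mem_map_of_mem _ hf

lemma isMaximal_ofList_X_cons {rs : List A} (h : (Ideal.ofList rs).IsMaximal) :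
    (Ideal.ofList (PowerSeries.X :: rs.map PowerSeries.C)).IsMaximal := by
  rw [ofList_X_cons]
  exact Ideal.comap_isMaximal_of_surjective _ (fun a => ⟨PowerSeries.C a, by simp⟩)

end PS

section Equiv

variable {S T : Type*} [CommRing S] [CommRing T]

lemma isWeaklyRegular_map_ringEquiv (e : S ≃+* T) (rs : List S) :
    IsWeaklyRegular T (rs.map e) ↔ IsWeaklyRegular S rs := by
  refine (AddEquiv.isWeaklyRegular_congr (e := e.toAddEquiv) ?_).symm
  exact List.forall₂_map_right_iff.mpr <| List.forall₂_same.mpr fun r _ x => by simp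

lemma isMaximal_ofList_map_ringEquiv (e : S ≃+* T) {rs : List S}
    (h : (Ideal.ofList rs).IsMaximal) : (Ideal.ofList (rs.map e)).IsMaximal := by
  have : Ideal.ofList (rs.map e) = (Ideal.ofList rs).map (e : S →+* T) := by
    rw [Ideal.map_ofList]; rfl
  rw [this]
  exact Ideal.map_isMaximal_of_equiv e

end Equiv


section Mv

variable {𝒪 : Type*} [CommRing 𝒪]

/-- the sequence `X_0, ..., X_{r-1}, C ϖ` -/
noncomputable def regSeq (ϖ : 𝒪) (r : ℕ) : List (MvPowerSeries (Fin r) 𝒪) :=
  (List.ofFn fun i : Fin r => (MvPowerSeries.X i : MvPowerSeries (Fin r) 𝒪)) ++ [MvPowerSeries.C ϖ]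

lemma regSeq_length (ϖ : 𝒪) (r : ℕ) : (regSeq ϖ r).length = r + 1 := by
  simp [regSeq]

lemma regSeq_succ (ϖ : 𝒪) (r : ℕ) :
    (regSeq ϖ (r+1)).map (MvPowerSeries.finSuccEquiv 𝒪 r) =
      PowerSeries.X :: (regSeq ϖ r).map PowerSeries.C := by
  simp only [regSeq, List.ofFn_succ, List.cons_append, List.map_cons, List.map_append,
    List.map_ofFn, List.map_nil]
  congr 1
  · exact MvPowerSeries.finSuccEquiv_X_zero
  · congr 1
    · congr 1
      funext j
      simp
    · simp

lemma isSMulRegular_C {σ : Type*} {ϖ : 𝒪} (hϖ : IsSMulRegular 𝒪 ϖ) :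
    IsSMulRegular (MvPowerSeries σ 𝒪) (MvPowerSeries.C ϖ : MvPowerSeries σ 𝒪) := by
  intro f g h
  ext d
  have := congrArg (MvPowerSeries.coeff d) h
  simp only [smul_eq_mul, MvPowerSeries.coeff_C_mul] at this
  exact hϖ this

theorem regSeq_spec {ϖ : 𝒪} (hϖ : IsSMulRegular 𝒪 ϖ) (hmax : (Ideal.span {ϖ}).IsMaximal) (r : ℕ) :
    IsWeaklyRegular (MvPowerSeries (Fin r) 𝒪) (regSeq ϖ r) ∧
      (Ideal.ofList (regSeq ϖ r)).IsMaximal := by
  induction r with
  | zero =>
    constructor
    · simp only [regSeq, List.ofFn_zero, List.nil_append]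
      rw [isWeaklyRegular_singleton_iff]
      exact isSMulRegular_C hϖ
    · simp only [regSeq, List.ofFn_zero, List.nil_append]
      rw [Ideal.ofList_singleton]
      have : Ideal.span {(MvPowerSeries.C ϖ : MvPowerSeries (Fin 0) 𝒪)} =
          (Ideal.span {ϖ}).map
            ((MvPowerSeries.isEmptyEquiv (Fin 0) 𝒪).symm : 𝒪 →+* MvPowerSeries (Fin 0) 𝒪) := by
        rw [Ideal.map_span, Set.image_singleton]
        rfl
      rw [this]
      exact Ideal.map_isMaximal_of_equiv (MvPowerSeries.isEmptyEquiv (Fin 0) 𝒪).symm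
  | succ r ih =>
    obtain ⟨ih1, ih2⟩ := ih
    have hmap : (regSeq ϖ (r+1)).map (MvPowerSeries.finSuccEquiv 𝒪 r).toRingEquiv =
        PowerSeries.X :: (regSeq ϖ r).map PowerSeries.C := regSeq_succ ϖ r
    constructor
    · rw [← isWeaklyRegular_map_ringEquiv (MvPowerSeries.finSuccEquiv 𝒪 r).toRingEquiv, hmap]
      exact isWeaklyRegular_X_cons ih1
    · have h1 := isMaximal_ofList_X_cons ih2
      rw [← hmap] at h1
      have h2 := isMaximal_ofList_map_ringEquiv (MvPowerSeries.finSuccEquiv 𝒪 r).toRingEquiv.symm h1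
      rw [List.map_map] at h2
      have h3 : (⇑(MvPowerSeries.finSuccEquiv 𝒪 r).toRingEquiv.symm ∘
          ⇑(MvPowerSeries.finSuccEquiv 𝒪 r).toRingEquiv) = id := by
        funext x; simp
      rwa [h3, List.map_id] at h2

/-- `X_0, ..., X_{r-1}, C ϖ` generates the maximal ideal of `𝒪⟦X_0, ..., X_{r-1}⟧`. -/
theorem ofList_regSeq_eq_maximalIdeal [IsLocalRing 𝒪] {ϖ : 𝒪} (hϖ : IsSMulRegular 𝒪 ϖ)
    (hmax : (Ideal.span {ϖ}).IsMaximal) (r : ℕ) :
    Ideal.ofList (regSeq ϖ r) = IsLocalRing.maximalIdeal (MvPowerSeries (Fin r) 𝒪) :=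
  IsLocalRing.eq_maximalIdeal (regSeq_spec hϖ hmax r).2

/-- `X_0, ..., X_{r-1}, C ϖ` is a regular sequence on `𝒪⟦X_0, ..., X_{r-1}⟧`. -/
theorem regSeq_isRegular {ϖ : 𝒪} (hϖ : IsSMulRegular 𝒪 ϖ)
    (hmax : (Ideal.span {ϖ}).IsMaximal) (r : ℕ) :
    IsRegular (MvPowerSeries (Fin r) 𝒪) (regSeq ϖ r) := by
  refine ⟨(regSeq_spec hϖ hmax r).1, ?_⟩
  rw [smul_eq_mul, Ideal.mul_top]
  exact ((regSeq_spec hϖ hmax r).2.ne_top).symm

/-- For a discrete valuation ring with uniformizer `ϖ` the hypotheses of `regSeq_spec` hold. -/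
theorem exists_regSeq_data (𝒪 : Type*) [CommRing 𝒪] [IsDomain 𝒪] [IsDiscreteValuationRing 𝒪] :
    ∃ ϖ : 𝒪, IsSMulRegular 𝒪 ϖ ∧ (Ideal.span {ϖ}).IsMaximal := by
  obtain ⟨ϖ, hϖ⟩ := IsDiscreteValuationRing.exists_irreducible 𝒪
  refine ⟨ϖ, ?_, ?_⟩
  · intro a b h
    exact mul_left_cancel₀ hϖ.ne_zero h
  · rw [← hϖ.maximalIdeal_eq]
    exact IsLocalRing.maximalIdeal.isMaximal 𝒪

end Mv


section Transport

open IsLocalRing

variable {𝒪 : Type} [CommRing 𝒪] {r : ℕ} {R : Type} [CommRing R] [Algebra 𝒪 R]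
  {M : Type} [AddCommGroup M] [Module R M] {J : Ideal (MvPowerSeries (Fin r) 𝒪)}

/-- The `φ`-semilinear coordinate map `Λ^d → N`, `c ↦ ∑ φ (c i) • b i`. -/
noncomputable def coordHom (L : Algebra.PatchingLevel 𝒪 r R M J) :
    (Fin L.d → MvPowerSeries (Fin r) 𝒪) →+ L.N where
  toFun c := ∑ i, L.φ (c i) • L.b i
  map_zero' := by simp
  map_add' c c' := by simp [add_smul, Finset.sum_add_distrib]

theorem coordHom_apply (L : Algebra.PatchingLevel 𝒪 r R M J)
    (c : Fin L.d → MvPowerSeries (Fin r) 𝒪) : coordHom L c = ∑ i, L.φ (c i) • L.b i := rfl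

theorem coordHom_smul (L : Algebra.PatchingLevel 𝒪 r R M J) (a : MvPowerSeries (Fin r) 𝒪)
    (c : Fin L.d → MvPowerSeries (Fin r) 𝒪) : coordHom L (a • c) = L.φ a • coordHom L c := by
  simp [coordHom_apply, Finset.smul_sum, mul_smul]

theorem coordHom_bijective (L : Algebra.PatchingLevel 𝒪 r R M ⊥) :
    Function.Bijective (coordHom L) := by
  constructor
  · rw [injective_iff_map_eq_zero]
    intro c hc
    have h := (L.b_rel c).1 hc
    funext i
    simpa using h i
  · intro x
    obtain ⟨c, hc⟩ := L.b_span x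
    exact ⟨c, hc.symm⟩

/-- The coordinate map as an additive equivalence. -/
noncomputable def coordEquiv (L : Algebra.PatchingLevel 𝒪 r R M ⊥) :
    (Fin L.d → MvPowerSeries (Fin r) 𝒪) ≃+ L.N :=
  AddEquiv.ofBijective (coordHom L) (coordHom_bijective L)

/-- Weakly regular sequences on `Λ` are carried by `φ` to weakly regular sequences on `N`. -/
theorem isWeaklyRegular_map_φ (L : Algebra.PatchingLevel 𝒪 r R M ⊥)
    (rs : List (MvPowerSeries (Fin r) 𝒪))
    (h : IsWeaklyRegular (MvPowerSeries (Fin r) 𝒪) rs) :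
    IsWeaklyRegular L.N (rs.map L.φ) := by
  have h1 : IsWeaklyRegular (Fin L.d → MvPowerSeries (Fin r) 𝒪) rs :=
    ((TensorProduct.lid (MvPowerSeries (Fin r) 𝒪)
      (Fin L.d → MvPowerSeries (Fin r) 𝒪)).isWeaklyRegular_congr rs).1 h.isWeaklyRegular_rTensor
  refine (AddEquiv.isWeaklyRegular_congr (e := coordEquiv L) ?_).1 h1
  exact List.forall₂_map_right_iff.mpr <| List.forall₂_same.mpr fun a _ c => coordHom_smul L a c

/-- The patched module is finite over the power series ring. -/
theorem finite_N (L : Algebra.PatchingLevel 𝒪 r R M J) :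
    Module.Finite (MvPowerSeries (Fin r) 𝒪) L.N := by
  refine Module.Finite.of_surjective (Fintype.linearCombination (MvPowerSeries (Fin r) 𝒪) L.b) ?_
  intro x
  obtain ⟨c, hc⟩ := L.b_span x
  exact ⟨fun i => L.φ (c i), by rw [Fintype.linearCombination_apply]; exact hc.symm⟩

/-- `φ (X i)` is not a unit, because `ψ` kills it and `R` is nontrivial. -/
theorem φ_X_mem_maximalIdeal [IsLocalRing 𝒪] [Nontrivial M]
    (L : Algebra.PatchingLevel 𝒪 r R M J) (i : Fin r) :
    L.φ (MvPowerSeries.X i) ∈ maximalIdeal (MvPowerSeries (Fin r) 𝒪) := by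
  rw [IsLocalRing.mem_maximalIdeal, mem_nonunits_iff]
  intro hu
  have h0 := hu.map L.ψ
  rw [L.ψ_φ_X] at h0
  have hR : Subsingleton R := subsingleton_of_zero_eq_one (isUnit_zero_iff.1 h0)
  have hM : Subsingleton M := Module.subsingleton R M
  exact not_subsingleton M hM

/-- **The patched module is free over the power series ring.** -/
theorem free_N [IsDomain 𝒪] [IsDiscreteValuationRing 𝒪] [Nontrivial M]
    (L : Algebra.PatchingLevel 𝒪 r R M ⊥) :
    Module.Free (MvPowerSeries (Fin r) 𝒪) L.N := by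
  classical
  obtain ⟨ϖ, hϖ, hmax⟩ := exists_regSeq_data 𝒪
  have hfin : Module.Finite (MvPowerSeries (Fin r) 𝒪) L.N := finite_N L
  have hmaxeq := ofList_regSeq_eq_maximalIdeal hϖ hmax r
  refine free_of_isWeaklyRegular (r + 1) (MvPowerSeries (Fin r) 𝒪) L.N ((regSeq ϖ r).map L.φ)
    (by rw [List.length_map, regSeq_length]) ?_
    (isWeaklyRegular_map_φ L _ (regSeq_spec hϖ hmax r).1) (regSeq ϖ r).toFinset
    ((List.toFinset_card_le _).trans (regSeq_length ϖ r).le) ?_
  · intro y hy
    obtain ⟨a, ha, rfl⟩ := List.mem_map.1 hy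
    rw [regSeq, List.mem_append, List.mem_ofFn, List.mem_singleton] at ha
    rcases ha with ⟨i, rfl⟩ | rfl
    · exact φ_X_mem_maximalIdeal L i
    · rw [MvPowerSeries.c_eq_algebraMap, L.φ.commutes, ← MvPowerSeries.c_eq_algebraMap, ← hmaxeq]
      refine Ideal.subset_span ?_
      show MvPowerSeries.C ϖ ∈ regSeq ϖ r
      simp [regSeq]
  · rw [← hmaxeq, List.coe_toFinset]

end Transport

end Fermat.Agent.S57.helper117
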