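import Mathlib.RingTheory.Regular.ProjectiveDimension
import Mathlib.RingTheory.FiniteLength
import Mathlib.RingTheory.SimpleModule.Basic

set_option autoImplicit false

namespace Fermat.Agent.S57.helper1257

open CategoryTheory IsLocalRing RingTheory.Sequence

universe u

/-- Over a local ring, a module of finite length has projective dimension bounded by that of
the residue field. -/
theorem hasProjectiveDimensionLT_of_isFiniteLength
    {A : Type u} [CommRing A] [IsLocalRing A] (n : ℕ)
    (hk : HasProjectiveDimensionLT (ModuleCat.of A (A ⧸ maximalIdeal A)) n)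
    {L : Type u} [AddCommGroup L] [Module A L] (hL : IsFiniteLength A L) :
    HasProjectiveDimensionLT (ModuleCat.of A L) n := by
  induction hL with
  | of_subsingleton =>
    have := (ModuleCat.isZero_of_subsingleton (ModuleCat.of A ‹_›)).hasProjectiveDimensionLT_zero
    exact hasProjectiveDimensionLT_of_ge _ 0 n (Nat.zero_le n)
  | @of_simple_quotient M _ _ S hs _ ih =>
    have hS := LinearMap.shortExact_shortComplexKer (Submodule.mkQ_surjective S)
    refine hS.hasProjectiveDimensionLT_X₂ n ?_ ?_
    · exact hasProjectiveDimensionLT_of_iso
        (LinearEquiv.toModuleIso (LinearEquiv.ofEq _ _ (Submodule.ker_mkQ S).symm)) n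
    · obtain ⟨I, hI, ⟨e⟩⟩ := isSimpleModule_iff_quot_maximal.mp hs
      obtain rfl : I = maximalIdeal A := IsLocalRing.eq_maximalIdeal hI
      exact hasProjectiveDimensionLT_of_iso (LinearEquiv.toModuleIso e.symm) n

/-- A finite module over a Noetherian local ring whose maximal ideal is generated by a regular
sequence `xs`, admitting a weakly regular sequence of at least the same length in the maximal
ideal with finite-length quotient, is free. -/
theorem free_of_isWeaklyRegular
    {A : Type u} [CommRing A] [IsLocalRing A] [IsNoetherianRing A]
    (xs : List A) (hxs : IsRegular A xs) (hm : Ideal.ofList xs = maximalIdeal A)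
    {N : Type u} [AddCommGroup N] [Module A N] [Module.Finite A N]
    (rs : List A) (hrs : IsWeaklyRegular N rs) (hmem : ∀ r ∈ rs, r ∈ maximalIdeal A)
    (hlen : xs.length ≤ rs.length)
    (hfl : IsFiniteLength A (N ⧸ Ideal.ofList rs • (⊤ : Submodule A N))) :
    Module.Free A N := by
  rcases subsingleton_or_nontrivial N with hN | hN
  · exact Module.Free.of_subsingleton A N
  -- projective dimension of the residue field
  have h1 : projectiveDimension (ModuleCat.of A (A ⧸ maximalIdeal A)) = xs.length := by
    rw [← ModuleCat.projectiveDimension_quotient_eq_length.{u} xs hxs]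
    refine ModuleCat.projectiveDimension_eq_of_linearEquiv.{u, u} (M := ModuleCat.of A _)
      (N := ModuleCat.of A _) ?_
    exact (Submodule.quotEquivOfEq _ _ hm.symm).trans (Shrink.linearEquiv A _).symm
  have h2 : HasProjectiveDimensionLT (ModuleCat.of A (A ⧸ maximalIdeal A)) (xs.length + 1) :=
    (projectiveDimension_le_iff _ _).mp h1.le
  have h3 : HasProjectiveDimensionLT
      (ModuleCat.of A (N ⧸ Ideal.ofList rs • (⊤ : Submodule A N))) (xs.length + 1) :=
    hasProjectiveDimensionLT_of_isFiniteLength _ h2 hfl
  have h4 := ModuleCat.projectiveDimension_quotient_eq_add_length_of_isWeaklyRegular.{u}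
    (ModuleCat.of A N) rs hrs hmem
  have h5 : projectiveDimension (ModuleCat.of A N) + (rs.length : ℕ) ≤ (0 : ℕ) + (rs.length : ℕ) := by
    rw [← h4]
    refine ((projectiveDimension_le_iff _ _).mpr h3).trans ?_
    simpa using hlen
  rw [ENat.WithBot.add_le_add_natCast_right_iff] at h5
  have h6 : Projective (ModuleCat.of A N) :=
    (projective_iff_hasProjectiveDimensionLE_zero _).mpr ((projectiveDimension_le_iff _ _).mp h5)
  have h7 : Module.Projective A N := (IsProjective.iff_projective _).mpr h6
  exact Module.free_of_flat_of_isLocalRing

end Fermat.Agent.S57.helper1257
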