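import Mathlib.RingTheory.Regular.ProjectiveDimension
import Mathlib.RingTheory.FiniteLength
import Mathlib.RingTheory.SimpleModule.Basic

/-!
# A module of maximal depth over a local ring whose maximal ideal is generated by a regular
sequence is free (Auslander–Buchsbaum-type statement, via Mathlib's projective dimension API).
-/

set_option autoImplicit false
set_option linter.unusedSectionVars false

namespace Fermat.Agent.S57.helper297

open CategoryTheory IsLocalRing RingTheory.Sequence

universe u

variable {R : Type u} [CommRing R] [IsLocalRing R] [IsNoetherianRing R]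

/-- Simple modules over a local ring whose maximal ideal is generated by a regular sequence
`rs` have projective dimension `≤ rs.length`. -/
lemma hasProjectiveDimensionLT_of_isSimpleModule (rs : List R) (hreg : IsRegular R rs)
    (hrs : Ideal.ofList rs = maximalIdeal R)
    (K : Type u) [AddCommGroup K] [Module R K] [IsSimpleModule R K] :
    HasProjectiveDimensionLT (ModuleCat.of R K) (rs.length + 1) := by
  have h1 := ModuleCat.projectiveDimension_quotient_eq_length.{u} rs hreg
  obtain ⟨I, hI, ⟨e⟩⟩ := isSimpleModule_iff_quot_maximal.mp (inferInstance : IsSimpleModule R K)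
  have hIm : I = maximalIdeal R := IsLocalRing.eq_maximalIdeal hI
  subst hIm
  rw [← hrs] at e
  let e' : K ≃ₗ[R] Shrink.{u} (R ⧸ Ideal.ofList rs) := e.trans (Shrink.linearEquiv R _).symm
  have h2 : projectiveDimension (ModuleCat.of R K) = rs.length := by
    rw [← h1]
    exact ModuleCat.projectiveDimension_eq_of_linearEquiv
      (M := ModuleCat.of R K) (N := ModuleCat.of R (Shrink.{u} (R ⧸ Ideal.ofList rs))) e'
  have h3 : projectiveDimension (ModuleCat.of R K) ≤ (rs.length : ℕ) := le_of_eq h2
  exact (projectiveDimension_le_iff _ _).mp h3

omit [IsLocalRing R] [IsNoetherianRing R] in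
/-- If all simple modules have projective dimension `< n`, so do all modules of finite length. -/
lemma hasProjectiveDimensionLT_of_isFiniteLength (n : ℕ)
    (hk : ∀ (K : Type u) [AddCommGroup K] [Module R K] [IsSimpleModule R K],
      HasProjectiveDimensionLT (ModuleCat.of R K) n)
    (M : Type u) [AddCommGroup M] [Module R M] (hM : IsFiniteLength R M) :
    HasProjectiveDimensionLT (ModuleCat.of R M) n := by
  induction hM with
  | of_subsingleton =>
    rename_i M _ _ _
    have hz : Limits.IsZero (ModuleCat.of R M) := ModuleCat.isZero_of_subsingleton _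
    have := hz.hasProjectiveDimensionLT_zero
    exact hasProjectiveDimensionLT_of_ge _ 0 n (Nat.zero_le n)
  | of_simple_quotient h ih =>
    rename_i M _ _ N _
    let S : ShortComplex (ModuleCat.{u} R) :=
      ModuleCat.shortComplexOfCompEqZero N.subtype N.mkQ (by ext x; simp)
    have hS : S.ShortExact := ModuleCat.shortComplex_shortExact S
      (by
        intro x
        constructor
        · intro hx
          exact ⟨⟨x, (Submodule.Quotient.mk_eq_zero N).mp hx⟩, rfl⟩
        · rintro ⟨y, rfl⟩
          exact (Submodule.Quotient.mk_eq_zero N).mpr y.2)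
      N.injective_subtype (Submodule.mkQ_surjective N)
    exact hS.hasProjectiveDimensionLT_X₂ n ih (hk (M ⧸ N))

/-- **Freeness criterion.** Let `R` be a Noetherian local ring whose maximal ideal is generated by
an `R`-regular sequence `rs`. Let `N` be a finitely generated nontrivial module with a weakly
regular sequence `ys` in the maximal ideal of the same length, such that `N / (ys) N` has finite
length. Then `N` is free. -/
theorem free_of_isWeaklyRegular (rs : List R) (hreg : IsRegular R rs)
    (hrs : Ideal.ofList rs = maximalIdeal R)
    (N : Type u) [AddCommGroup N] [Module R N] [Module.Finite R N] [Nontrivial N]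
    (ys : List R) (hys : IsWeaklyRegular N ys) (hmem : ∀ y ∈ ys, y ∈ maximalIdeal R)
    (hlen : ys.length = rs.length)
    (hfl : IsFiniteLength R (N ⧸ (Ideal.ofList ys • ⊤ : Submodule R N))) :
    Module.Free R N := by
  have h1 := ModuleCat.projectiveDimension_quotient_eq_add_length_of_isWeaklyRegular
    (ModuleCat.of R N) ys hys hmem
  have h2 : HasProjectiveDimensionLT
      (ModuleCat.of R (N ⧸ (Ideal.ofList ys • ⊤ : Submodule R N))) (rs.length + 1) :=
    hasProjectiveDimensionLT_of_isFiniteLength (rs.length + 1)
      (fun K _ _ _ => hasProjectiveDimensionLT_of_isSimpleModule rs hreg hrs K) _ hfl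
  have h3 : projectiveDimension (ModuleCat.of R (N ⧸ (Ideal.ofList ys • ⊤ : Submodule R N)))
      ≤ (rs.length : ℕ) := (projectiveDimension_le_iff _ _).mpr h2
  rw [h1, hlen] at h3
  have h4 : projectiveDimension (ModuleCat.of R N) ≤ ((0 : ℕ) : WithBot ℕ∞) := by
    generalize projectiveDimension (ModuleCat.of R N) = d at h3
    induction d with
    | bot => exact bot_le
    | coe d =>
      induction d with
      | top =>
        exfalso
        have : ((⊤ : ℕ∞) : WithBot ℕ∞) + ((rs.length : ℕ) : WithBot ℕ∞) = ((⊤ : ℕ∞) : WithBot ℕ∞) := by
          rfl
        rw [this] at h3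
        exact absurd (WithBot.coe_le_coe.mp h3) (by simp)
      | coe d =>
        have h5 : ((d + rs.length : ℕ) : WithBot ℕ∞) ≤ ((rs.length : ℕ) : WithBot ℕ∞) := by
          simpa using h3
        have h6 : d + rs.length ≤ rs.length := by exact_mod_cast h5
        have h7 : d = 0 := by omega
        subst h7
        exact le_refl _
  have h5 : HasProjectiveDimensionLE (ModuleCat.of R N) 0 := (projectiveDimension_le_iff _ _).mp h4
  have h6 : Projective (ModuleCat.of R N) := (projective_iff_hasProjectiveDimensionLE_zero _).mpr h5
  have h7 : Module.Projective R N := (IsProjective.iff_projective (R := R) (P := N)).mpr h6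
  exact Module.free_of_flat_of_isLocalRing

end Fermat.Agent.S57.helper297
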