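import Fermat.Agent.S57.helper297_Main

/-!
# The patching descent step: conclusion
-/

set_option autoImplicit false
set_option linter.unusedSectionVars false
set_option linter.style.haveILetI false

namespace Fermat.Agent.S57.helper297

open MvPowerSeries

variable {𝒪 : Type} [CommRing 𝒪] [IsDomain 𝒪] [IsDiscreteValuationRing 𝒪]
    {r : ℕ} {R : Type} [CommRing R] [Algebra 𝒪 R]
    {M : Type} [AddCommGroup M] [Module R M]
    (L : Algebra.PatchingLevel 𝒪 r R M ⊥)

theorem descent [Nontrivial M] :
    Module.Free R M ∧ Module.annihilator R M = ⊥ ∧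
      RingHom.ker L.ψ = Ideal.span (Set.range fun i : Fin r => L.φ (MvPowerSeries.X i)) := by
  classical
  haveI := free_N L
  haveI := nontrivial_N L
  set I : Ideal (MvPowerSeries (Fin r) 𝒪) :=
    Ideal.span (Set.range fun i : Fin r => L.φ (MvPowerSeries.X i)) with hI
  let B := Module.Free.chooseBasis (MvPowerSeries (Fin r) 𝒪) L.N
  have hIker : I ≤ RingHom.ker L.ψ := by
    rw [hI, Ideal.span_le]
    rintro _ ⟨i, rfl⟩
    exact L.ψ_φ_X i
  have hcoord : ∀ x ∈ (I • ⊤ : Submodule (MvPowerSeries (Fin r) 𝒪) L.N), ∀ j, B.repr x j ∈ I := by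
    intro x hx j
    refine Submodule.smul_induction_on hx ?_ ?_
    · intro a ha n _
      rw [map_smul, Finsupp.smul_apply, smul_eq_mul]
      exact I.mul_mem_right _ ha
    · intro x y hx hy
      rw [map_add, Finsupp.add_apply]
      exact I.add_mem hx hy
  have hπ : ∀ (s : Finset (Module.Free.ChooseBasisIndex (MvPowerSeries (Fin r) 𝒪) L.N))
      (c : Module.Free.ChooseBasisIndex (MvPowerSeries (Fin r) 𝒪) L.N → MvPowerSeries (Fin r) 𝒪),
      L.π (∑ i ∈ s, c i • B i) = ∑ i ∈ s, L.ψ (c i) • L.π (B i) := by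
    intro s c
    rw [map_sum]
    exact Finset.sum_congr rfl (fun i _ => L.π_smul _ _)
  have hker : RingHom.ker L.ψ = I := by
    apply le_antisymm _ hIker
    intro f hf
    obtain ⟨j⟩ := B.index_nonempty
    have h1 : L.π (f • B j) = 0 := by rw [L.π_smul, (RingHom.mem_ker).mp hf, zero_smul]
    have h2 := hcoord _ ((L.ker_π _).mp h1) j
    rw [map_smul, Finsupp.smul_apply, B.repr_self, Finsupp.single_eq_same, smul_eq_mul,
      mul_one] at h2
    exact h2
  have hli : LinearIndependent R (fun j => L.π (B j)) := by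
    rw [linearIndependent_iff']
    intro s g hg i hi
    choose c hc using fun i => L.ψ_surjective (g i)
    have h1 : L.π (∑ i ∈ s, c i • B i) = 0 := by
      rw [hπ]
      simpa [hc] using hg
    have h2 := hcoord _ ((L.ker_π _).mp h1) i
    have h3 : B.repr (∑ i ∈ s, c i • B i) i = c i := by
      rw [map_sum, Finsupp.finsetSum_apply]
      simp [Finsupp.single_apply, hi]
    rw [h3] at h2
    rw [← hc i]
    exact hIker h2
  have hsp : ⊤ ≤ Submodule.span R (Set.range fun j => L.π (B j)) := by
    intro m _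
    obtain ⟨x, rfl⟩ := L.π_surjective m
    rw [← B.sum_repr x, hπ]
    exact Submodule.sum_mem _ fun i _ => Submodule.smul_mem _ _ (Submodule.subset_span ⟨i, rfl⟩)
  refine ⟨Module.Free.of_basis (Module.Basis.mk hli hsp), ?_, hker⟩
  rw [Submodule.eq_bot_iff]
  intro a ha
  obtain ⟨j⟩ := B.index_nonempty
  have h1 : a • L.π (B j) = 0 := Module.mem_annihilator.mp ha _
  exact linearIndependent_iff'.mp hli {j} (fun _ => a) (by simpa using h1) j (by simp)

end Fermat.Agent.S57.helper297
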