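import Mathlib.RingTheory.MvPowerSeries.Basic
import Mathlib.RingTheory.MvPowerSeries.Inverse
import Mathlib.RingTheory.MvPowerSeries.Equiv
import Mathlib.RingTheory.Regular.RegularSequence
import Mathlib.RingTheory.DiscreteValuationRing.Basic

/-!
# The variables (followed by a uniformizer) form a regular sequence in a power series ring
-/

set_option autoImplicit false
set_option linter.unusedSectionVars false

namespace Fermat.Agent.S57.helper297

open MvPowerSeries RingTheory.Sequence

section general

variable {σ : Type*} [DecidableEq σ] {A : Type*} [CommRing A]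

/-- Coefficient description of the ideal generated by the variables in a list `l`. -/
lemma mem_ofList_map_X_iff (l : List σ) (f : MvPowerSeries σ A) :
    f ∈ Ideal.ofList (l.map (X : σ → MvPowerSeries σ A)) ↔
      ∀ m : σ →₀ ℕ, (∀ j ∈ l, m j = 0) → coeff m f = 0 := by
  constructor
  · intro hf
    refine Submodule.span_induction (p := fun f _ => ∀ m : σ →₀ ℕ, (∀ j ∈ l, m j = 0) →
      coeff m f = 0) ?_ ?_ ?_ ?_ hf
    · rintro x hx m hm
      obtain ⟨j, hj, rfl⟩ := List.mem_map.mp hx
      rw [coeff_X, if_neg]
      intro h
      have := hm j hj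
      rw [h] at this
      simp at this
    · intro m _
      simp
    · intro x y _ _ hx hy m hm
      rw [map_add, hx m hm, hy m hm, add_zero]
    · intro a x _ hx m hm
      rw [smul_eq_mul, coeff_mul]
      refine Finset.sum_eq_zero ?_
      rintro ⟨p, q⟩ hpq
      rw [Finset.mem_antidiagonal] at hpq
      have hq : ∀ j ∈ l, q j = 0 := by
        intro j hj
        have h1 : (p + q) j = 0 := by
          have h2 : p + q = m := hpq
          rw [h2]
          exact hm j hj
        rw [Finsupp.add_apply] at h1
        omega
      rw [hx q hq, mul_zero]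
  · induction l generalizing f with
    | nil =>
      intro h
      have : f = 0 := by
        ext m
        simpa using h m (by simp)
      rw [this]
      exact Submodule.zero_mem _
    | cons a l ih =>
      intro h
      let g : MvPowerSeries σ A := fun m => if m a = 0 then coeff m f else 0
      have hg : g ∈ Ideal.ofList (l.map (X : σ → MvPowerSeries σ A)) := by
        apply ih
        intro m hm
        show (if m a = 0 then coeff m f else 0) = 0
        split_ifs with h0
        · apply h
          intro j hj
          rcases List.mem_cons.mp hj with rfl | hj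
          · exact h0
          · exact hm j hj
        · rfl
      have hdvd : (X a : MvPowerSeries σ A) ∣ f - g := by
        rw [X_dvd_iff]
        intro m hm
        rw [map_sub]
        show coeff m f - (if m a = 0 then coeff m f else 0) = 0
        rw [if_pos hm, sub_self]
      obtain ⟨c, hc⟩ := hdvd
      have hf : f = X a * c + g := by rw [← hc]; ring
      rw [hf, List.map_cons, Ideal.ofList_cons]
      refine Submodule.add_mem _ ?_ ?_
      · exact Ideal.mem_sup_left (Ideal.mul_mem_right _ _ (Ideal.mem_span_singleton_self _))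
      · exact Ideal.mem_sup_right hg

/-- Distinct variables form a weakly regular sequence in a power series ring. -/
lemma isWeaklyRegular_map_X (l : List σ) (hl : l.Nodup) :
    IsWeaklyRegular (MvPowerSeries σ A) (l.map (X : σ → MvPowerSeries σ A)) := by
  induction l using List.reverseRecOn with
  | nil => simp
  | append_singleton l a ih =>
    rw [List.nodup_append] at hl
    obtain ⟨hl1, -, hl3⟩ := hl
    have ha : a ∉ l := fun h => hl3 a h a (by simp) rfl
    rw [List.map_append, isWeaklyRegular_append_iff]
    refine ⟨ih hl1, ?_⟩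
    rw [List.map_singleton, isWeaklyRegular_singleton_iff,
      isSMulRegular_quotient_iff_mem_of_smul_mem]
    intro f hf
    rw [smul_eq_mul, Ideal.mul_top, smul_eq_mul] at *
    rw [mem_ofList_map_X_iff] at hf ⊢
    intro m hm
    have h1 := hf (Finsupp.single a 1 + m) (by
      intro j hj
      have hja : j ≠ a := fun h => ha (h ▸ hj)
      rw [Finsupp.add_apply, Finsupp.single_eq_of_ne hja, hm j hj])
    rw [X_def, coeff_add_monomial_mul, one_mul] at h1
    exact h1

end general

section dvr

open IsLocalRing

variable {𝒪 : Type*} [CommRing 𝒪] [IsDomain 𝒪] [IsDiscreteValuationRing 𝒪] (r : ℕ)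

/-- The regular system of parameters `X_0, …, X_{r-1}, ϖ` of `𝒪⟦X_0, …, X_{r-1}⟧`. -/
noncomputable def params (ϖ : 𝒪) : List (MvPowerSeries (Fin r) 𝒪) :=
  (List.finRange r).map X ++ [C ϖ]

lemma params_length (ϖ : 𝒪) : (params r ϖ).length = r + 1 := by
  simp [params]

lemma eq_zero_of_forall_mem_finRange {m : Fin r →₀ ℕ} (hm : ∀ j ∈ List.finRange r, m j = 0) :
    m = 0 := by
  ext j
  exact hm j (List.mem_finRange j)

lemma isWeaklyRegular_params {ϖ : 𝒪} (hϖ : ϖ ≠ 0) :
    IsWeaklyRegular (MvPowerSeries (Fin r) 𝒪) (params r ϖ) := by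
  rw [params, isWeaklyRegular_append_iff]
  refine ⟨isWeaklyRegular_map_X _ (List.nodup_finRange r), ?_⟩
  rw [isWeaklyRegular_singleton_iff, isSMulRegular_quotient_iff_mem_of_smul_mem]
  intro f hf
  rw [smul_eq_mul, Ideal.mul_top, smul_eq_mul] at *
  rw [mem_ofList_map_X_iff] at hf ⊢
  intro m hm
  have h1 := hf m hm
  have hm0 := eq_zero_of_forall_mem_finRange r hm
  subst hm0
  rw [coeff_C_mul] at h1
  exact (mul_eq_zero.mp h1).resolve_left hϖ

lemma ofList_params {ϖ : 𝒪} (hϖ : Irreducible ϖ) :
    Ideal.ofList (params r ϖ) = maximalIdeal (MvPowerSeries (Fin r) 𝒪) := by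
  apply le_antisymm
  · rw [Ideal.ofList, Ideal.span_le]
    intro x hx
    rw [Set.mem_ofPred_eq, params, List.mem_append] at hx
    rw [SetLike.mem_coe, IsLocalRing.mem_maximalIdeal, mem_nonunits_iff,
      MvPowerSeries.isUnit_iff_constantCoeff]
    rcases hx with hx | hx
    · obtain ⟨j, -, rfl⟩ := List.mem_map.mp hx
      rw [constantCoeff_X]
      exact not_isUnit_zero
    · rw [List.mem_singleton] at hx
      subst hx
      rw [constantCoeff_C]
      exact hϖ.not_isUnit
  · intro f hf
    rw [IsLocalRing.mem_maximalIdeal, mem_nonunits_iff,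
      MvPowerSeries.isUnit_iff_constantCoeff] at hf
    have h1 : constantCoeff f ∈ maximalIdeal 𝒪 := by
      rw [IsLocalRing.mem_maximalIdeal, mem_nonunits_iff]
      exact hf
    rw [hϖ.maximalIdeal_eq, Ideal.mem_span_singleton] at h1
    obtain ⟨a, ha⟩ := h1
    have h2 : f = (f - C ϖ * C a) + C ϖ * C a := by ring
    rw [h2, params, Ideal.ofList_append]
    refine Submodule.add_mem _ (Ideal.mem_sup_left ?_) (Ideal.mem_sup_right ?_)
    · rw [mem_ofList_map_X_iff]
      intro m hm
      have hm0 := eq_zero_of_forall_mem_finRange r hm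
      subst hm0
      rw [map_sub, coeff_C_mul, coeff_zero_C, coeff_zero_eq_constantCoeff_apply, ha, sub_self]
    · rw [Ideal.ofList_singleton]
      exact Ideal.mul_mem_right _ _ (Ideal.mem_span_singleton_self _)

lemma isRegular_params {ϖ : 𝒪} (hϖ : Irreducible ϖ) :
    IsRegular (MvPowerSeries (Fin r) 𝒪) (params r ϖ) := by
  refine IsRegular.of_isWeaklyRegular_of_mem_maximalIdeal _ ?_
    (isWeaklyRegular_params r hϖ.ne_zero)
  intro x hx
  rw [← ofList_params r hϖ]
  exact Ideal.subset_span hx

end dvr

end Fermat.Agent.S57.helper297
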