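import Fermat.Prelude.Def_Algebra_PatchingDatum
import Fermat.Agent.S57.helper297_Core
import Fermat.Agent.S57.helper297_Reg
import Mathlib.RingTheory.SimpleModule.Basic
import Mathlib.RingTheory.Artinian.Module
import Mathlib.RingTheory.Regular.Flat

/-!
# The patching descent step: `L.N` is free over the power series ring
-/

set_option autoImplicit false
set_option linter.unusedSectionVars false
set_option linter.style.haveILetI false

namespace Fermat.Agent.S57.helper297

open MvPowerSeries RingTheory.Sequence IsLocalRing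

section transfer

/-- A module over a Noetherian `A`-algebra `B` which is finite over `A` and killed by a maximal
ideal of `A` has finite length over `B`. -/
lemma isFiniteLength_of_tower (A B Q : Type*) [CommRing A] [CommRing B] [Algebra A B]
    [IsNoetherianRing B] [AddCommGroup Q] [Module A Q] [Module B Q] [IsScalarTower A B Q]
    (I : Ideal A) [I.IsMaximal] [Module.Finite A Q] (hI : ∀ a ∈ I, ∀ q : Q, a • q = 0) :
    IsFiniteLength B Q := by
  have hT : Module.IsTorsionBySet A Q I := by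
    intro q a
    exact hI a.1 a.2 q
  have hss : IsSemisimpleModule A Q := by
    let _ := hT.module
    let _ : Field (A ⧸ I) := Ideal.Quotient.field I
    exact hT.isSemisimpleModule_iff.mp inferInstance
  have hart : IsArtinian A Q := inferInstance
  have hartB : IsArtinian B Q := isArtinian_of_tower A hart
  have : Module.Finite B Q := Module.Finite.of_restrictScalars_finite A B Q
  exact isFiniteLength_iff_isNoetherian_isArtinian.mpr ⟨inferInstance, hartB⟩

end transfer

section patching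

variable {𝒪 : Type} [CommRing 𝒪] [IsDomain 𝒪] [IsDiscreteValuationRing 𝒪]
    {r : ℕ} {R : Type} [CommRing R] [Algebra 𝒪 R]
    {M : Type} [AddCommGroup M] [Module R M]
    (L : Algebra.PatchingLevel 𝒪 r R M ⊥)

/-- The `φ`-semilinear map `Λ^d → N`, `c ↦ ∑ φ(c i) • b i`. -/
noncomputable def coordHom : (Fin L.d → MvPowerSeries (Fin r) 𝒪) →+ L.N where
  toFun c := ∑ i, L.φ (c i) • L.b i
  map_zero' := by simp
  map_add' c c' := by simp [add_smul, Finset.sum_add_distrib]

lemma coordHom_apply (c : Fin L.d → MvPowerSeries (Fin r) 𝒪) :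
    coordHom L c = ∑ i, L.φ (c i) • L.b i := rfl

lemma coordHom_bijective : Function.Bijective (coordHom L) := by
  constructor
  · rw [injective_iff_map_eq_zero]
    intro c hc
    have h := (L.b_rel c).mp hc
    funext i
    simpa using h i
  · intro x
    obtain ⟨c, hc⟩ := L.b_span x
    exact ⟨c, hc.symm⟩

/-- The additive equivalence `Λ^d ≃+ N`. -/
noncomputable def coordEquiv : (Fin L.d → MvPowerSeries (Fin r) 𝒪) ≃+ L.N :=
  AddEquiv.ofBijective (coordHom L) (coordHom_bijective L)

lemma coordEquiv_smul (f : MvPowerSeries (Fin r) 𝒪) (c : Fin L.d → MvPowerSeries (Fin r) 𝒪) :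
    coordEquiv L (f • c) = L.φ f • coordEquiv L c := by
  show coordHom L (f • c) = L.φ f • coordHom L c
  simp [coordHom_apply, Finset.smul_sum, smul_smul]

lemma isWeaklyRegular_N (rs : List (MvPowerSeries (Fin r) 𝒪))
    (h : IsWeaklyRegular (MvPowerSeries (Fin r) 𝒪) rs) :
    IsWeaklyRegular L.N (rs.map L.φ) := by
  have h1 : IsWeaklyRegular (Fin L.d → MvPowerSeries (Fin r) 𝒪) rs := by
    have h2 := h.isWeaklyRegular_lTensor (M₂ := (Fin L.d → MvPowerSeries (Fin r) 𝒪))
    exact ((TensorProduct.rid (MvPowerSeries (Fin r) 𝒪)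
      (Fin L.d → MvPowerSeries (Fin r) 𝒪)).isWeaklyRegular_congr rs).mp h2
  refine (AddEquiv.isWeaklyRegular_congr (e := coordEquiv L) ?_).mp h1
  exact List.forall₂_map_right_iff.mpr (List.forall₂_same.mpr fun f _ x => coordEquiv_smul L f x)

instance finite_N : Module.Finite (MvPowerSeries (Fin r) 𝒪) L.N := by
  classical
  refine ⟨⟨Finset.univ.image L.b, top_unique ?_⟩⟩
  intro x _
  obtain ⟨c, rfl⟩ := L.b_span x
  refine Submodule.sum_mem _ fun i _ => Submodule.smul_mem _ _ (Submodule.subset_span ?_)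
  simp

lemma nontrivial_N [Nontrivial M] : Nontrivial L.N :=
  L.π_surjective.nontrivial

lemma nontrivial_R [Nontrivial M] : Nontrivial R := by
  by_contra h
  rw [not_nontrivial_iff_subsingleton] at h
  have : Subsingleton M := Module.subsingleton R M
  exact not_nontrivial M ‹_›

lemma φ_C (a : 𝒪) : L.φ (C a) = C a := by
  rw [c_eq_algebraMap]
  exact L.φ.commutes a

lemma mem_maximalIdeal_of_mem_params [Nontrivial M] {ϖ : 𝒪} (hϖ : Irreducible ϖ) :
    ∀ y ∈ (params r ϖ).map L.φ, y ∈ maximalIdeal (MvPowerSeries (Fin r) 𝒪) := by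
  intro y hy
  obtain ⟨x, hx, rfl⟩ := List.mem_map.mp hy
  rw [params, List.mem_append] at hx
  rw [IsLocalRing.mem_maximalIdeal, mem_nonunits_iff]
  rcases hx with hx | hx
  · obtain ⟨j, -, rfl⟩ := List.mem_map.mp hx
    intro hu
    have h1 : IsUnit (L.ψ (L.φ (X j))) := hu.map L.ψ
    rw [L.ψ_φ_X] at h1
    have := nontrivial_R (R := R) (M := M)
    exact not_isUnit_zero h1
  · rw [List.mem_singleton] at hx
    subst hx
    rw [φ_C, MvPowerSeries.isUnit_iff_constantCoeff, constantCoeff_C]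
    exact hϖ.not_isUnit

lemma ofList_params_le_comap (ϖ : 𝒪) :
    Ideal.ofList (params r ϖ) ≤ (Ideal.ofList ((params r ϖ).map L.φ)).comap L.φ := by
  rw [Ideal.ofList, Ideal.span_le]
  intro x hx
  exact Ideal.subset_span (List.mem_map_of_mem hx)

lemma φ_sub_C_mem (ϖ : 𝒪) (c : MvPowerSeries (Fin r) 𝒪) :
    L.φ (c - C (constantCoeff c)) ∈ Ideal.ofList ((params r ϖ).map L.φ) := by
  have h1 : c - C (constantCoeff c) ∈ Ideal.ofList (params r ϖ) := by
    rw [params, Ideal.ofList_append]
    refine Ideal.mem_sup_left ?_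
    rw [mem_ofList_map_X_iff]
    intro m hm
    have hm0 := eq_zero_of_forall_mem_finRange r hm
    subst hm0
    rw [map_sub, coeff_zero_C, coeff_zero_eq_constantCoeff_apply, sub_self]
  exact ofList_params_le_comap L ϖ h1

lemma C_mem_ofList (ϖ : 𝒪) :
    (C ϖ : MvPowerSeries (Fin r) 𝒪) ∈ Ideal.ofList ((params r ϖ).map L.φ) := by
  have h1 : (C ϖ : MvPowerSeries (Fin r) 𝒪) ∈ Ideal.ofList (params r ϖ) :=
    Ideal.subset_span (by simp [params])
  have h2 := ofList_params_le_comap L ϖ h1
  rw [Ideal.mem_comap, φ_C] at h2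
  exact h2

lemma isFiniteLength_quot {ϖ : 𝒪} (hϖ : Irreducible ϖ) :
    IsFiniteLength (MvPowerSeries (Fin r) 𝒪)
      (L.N ⧸ (Ideal.ofList ((params r ϖ).map L.φ) • ⊤ :
        Submodule (MvPowerSeries (Fin r) 𝒪) L.N)) := by
  classical
  set P : Submodule (MvPowerSeries (Fin r) 𝒪) L.N :=
    Ideal.ofList ((params r ϖ).map L.φ) • ⊤ with hP
  letI : Module 𝒪 (L.N ⧸ P) :=
    Module.compHom (L.N ⧸ P) (algebraMap 𝒪 (MvPowerSeries (Fin r) 𝒪))
  have hsmul : ∀ (a : 𝒪) (q : L.N ⧸ P), a • q = (C a : MvPowerSeries (Fin r) 𝒪) • q :=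
    fun a q => rfl
  haveI : IsScalarTower 𝒪 (MvPowerSeries (Fin r) 𝒪) (L.N ⧸ P) :=
    ⟨fun a f q => by rw [hsmul, smul_eq_C_mul, mul_smul]⟩
  have hzero : ∀ g ∈ Ideal.ofList ((params r ϖ).map L.φ), ∀ x : L.N,
      (Submodule.Quotient.mk (g • x) : L.N ⧸ P) = 0 := by
    intro g hg x
    rw [Submodule.Quotient.mk_eq_zero]
    exact Submodule.smul_mem_smul hg Submodule.mem_top
  have hCϖ : ∀ q : L.N ⧸ P, (C ϖ : MvPowerSeries (Fin r) 𝒪) • q = 0 := by
    intro q
    obtain ⟨x, rfl⟩ := Submodule.Quotient.mk_surjective P q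
    rw [← Submodule.Quotient.mk_smul]
    exact hzero _ (C_mem_ofList L ϖ) x
  haveI : Module.Finite 𝒪 (L.N ⧸ P) := by
    refine ⟨⟨Finset.univ.image (fun i => (Submodule.Quotient.mk (L.b i) : L.N ⧸ P)),
      top_unique ?_⟩⟩
    intro q _
    obtain ⟨x, rfl⟩ := Submodule.Quotient.mk_surjective P q
    obtain ⟨c, rfl⟩ := L.b_span x
    have hmk : (Submodule.Quotient.mk (∑ i, L.φ (c i) • L.b i) : L.N ⧸ P) =
        ∑ i, (Submodule.Quotient.mk (L.φ (c i) • L.b i) : L.N ⧸ P) :=
      map_sum (Submodule.mkQ P) _ _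
    rw [hmk]
    refine Submodule.sum_mem _ fun i _ => ?_
    have h1 : L.φ (c i) = L.φ (c i - C (constantCoeff (c i))) + C (constantCoeff (c i)) := by
      rw [map_sub, φ_C, sub_add_cancel]
    have h2 : (Submodule.Quotient.mk (L.φ (c i) • L.b i) : L.N ⧸ P) =
        constantCoeff (c i) • (Submodule.Quotient.mk (L.b i) : L.N ⧸ P) := by
      rw [h1, add_smul, Submodule.Quotient.mk_add, hzero _ (φ_sub_C_mem L ϖ (c i)), zero_add,
        Submodule.Quotient.mk_smul, hsmul]
    rw [h2]
    refine Submodule.smul_mem _ _ (Submodule.subset_span ?_)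
    simp
  have hI : ∀ a ∈ maximalIdeal 𝒪, ∀ q : L.N ⧸ P, a • q = 0 := by
    intro a ha q
    rw [hϖ.maximalIdeal_eq, Ideal.mem_span_singleton] at ha
    obtain ⟨a', rfl⟩ := ha
    rw [hsmul, mul_comm, map_mul, mul_smul, hCϖ, smul_zero]
  exact isFiniteLength_of_tower 𝒪 (MvPowerSeries (Fin r) 𝒪) (L.N ⧸ P) (maximalIdeal 𝒪) hI

/-- **Key step**: the module `L.N` of a patching level with trivial relation ideal is free over
the power series ring. -/
theorem free_N [Nontrivial M] : Module.Free (MvPowerSeries (Fin r) 𝒪) L.N := by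
  obtain ⟨ϖ, hϖ⟩ := IsDiscreteValuationRing.exists_irreducible 𝒪
  haveI := nontrivial_N L
  exact free_of_isWeaklyRegular (params r ϖ) (isRegular_params r hϖ) (ofList_params r hϖ) L.N
    ((params r ϖ).map L.φ) (isWeaklyRegular_N L _ (isWeaklyRegular_params r hϖ.ne_zero))
    (mem_maximalIdeal_of_mem_params L hϖ) (by simp) (isFiniteLength_quot L hϖ)

end patching

end Fermat.Agent.S57.helper297
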