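import Mathlib.RingTheory.Regular.ProjectiveDimension
import Mathlib.RingTheory.FiniteLength
import Mathlib.RingTheory.SimpleModule.Basic

/-!
# S57 core (helper897): a maximal Cohen-Macaulay module over a regular local ring is free

Abstract form, with the finite length of `N ⧸ (ys) N` as a hypothesis:
if the maximal ideal of a Noetherian local ring `A` is generated by an `A`-regular sequence `rs`,
and a finite `A`-module `N` has a weakly regular sequence `ys` in the maximal ideal with
`rs.length ≤ ys.length` such that `N ⧸ (ys) N` has finite length, then `N` is free.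
-/

set_option autoImplicit false

namespace Fermat.Agent.S57.helper897

open CategoryTheory Abelian IsLocalRing Module RingTheory.Sequence

universe u

variable {A : Type u} [CommRing A] [IsLocalRing A] [IsNoetherianRing A]

/-- The residue field `A ⧸ 𝔪` has projective dimension at most the length of a regular
sequence generating `𝔪`. -/
theorem hasProjectiveDimensionLE_residue (rs : List A) (hrs : IsRegular A rs)
    (hm : Ideal.ofList rs = maximalIdeal A) :
    HasProjectiveDimensionLE (ModuleCat.of A (A ⧸ maximalIdeal A)) rs.length := by
  have h := ModuleCat.projectiveDimension_quotient_eq_length.{u} rs hrs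
  rw [← projectiveDimension_le_iff]
  have e : (Shrink.{u} (A ⧸ Ideal.ofList rs)) ≃ₗ[A] (A ⧸ maximalIdeal A) :=
    (Shrink.linearEquiv A _).trans (Submodule.quotEquivOfEq _ _ hm)
  have h' := ModuleCat.projectiveDimension_eq_of_linearEquiv
    (M := ModuleCat.of A (Shrink.{u} (A ⧸ Ideal.ofList rs)))
    (N := ModuleCat.of A (A ⧸ maximalIdeal A)) e
  rw [← h', h]

omit [IsNoetherianRing A] in
/-- Devissage: a module of finite length has projective dimension at most that of the
residue field. -/
theorem hasProjectiveDimensionLE_of_isFiniteLength (n : ℕ)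
    (hk : HasProjectiveDimensionLE (ModuleCat.of A (A ⧸ maximalIdeal A)) n)
    {L : Type u} [AddCommGroup L] [Module A L] (hL : IsFiniteLength A L) :
    HasProjectiveDimensionLE (ModuleCat.of A L) n := by
  induction hL with
  | of_subsingleton =>
    rename_i M _ _ _
    have hz : Limits.IsZero (ModuleCat.of A M) := ModuleCat.isZero_of_subsingleton _
    have := hz.hasProjectiveDimensionLT_zero
    exact hasProjectiveDimensionLT_of_ge _ 0 (n + 1) (Nat.zero_le _)
  | of_simple_quotient h ih =>
    rename_i M _ _ P hsimple
    obtain ⟨I, hI, ⟨e⟩⟩ := isSimpleModule_iff_quot_maximal.mp hsimple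
    obtain rfl := eq_maximalIdeal hI
    let S : ShortComplex (ModuleCat.{u} A) := P.mkQ.shortComplexKer
    have hS : S.ShortExact := LinearMap.shortExact_shortComplexKer P.mkQ_surjective
    have h1 : HasProjectiveDimensionLE S.X₁ n :=
      ModuleCat.hasProjectiveDimensionLE_of_linearEquiv
        (M := ModuleCat.of A P) (N := S.X₁)
        (LinearEquiv.ofEq _ _ (Submodule.ker_mkQ P).symm) n
    have h3 : HasProjectiveDimensionLE S.X₃ n :=
      ModuleCat.hasProjectiveDimensionLE_of_linearEquiv
        (M := ModuleCat.of A (A ⧸ maximalIdeal A)) (N := S.X₃) e.symm n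
    exact hS.hasProjectiveDimensionLT_X₂ (n + 1) h1 h3

/-- **MCM ⇒ free** over a regular local ring, with the finite length of `N ⧸ (ys) N` assumed. -/
theorem free_of_isRegular_of_isWeaklyRegular (rs : List A) (hrs : IsRegular A rs)
    (hm : Ideal.ofList rs = maximalIdeal A)
    {N : Type u} [AddCommGroup N] [Module A N] [Module.Finite A N]
    (ys : List A) (hys : IsWeaklyRegular N ys) (hmem : ∀ y ∈ ys, y ∈ maximalIdeal A)
    (hlen : rs.length ≤ ys.length)
    (hfl : IsFiniteLength A (N ⧸ Ideal.ofList ys • (⊤ : Submodule A N))) :
    Module.Free A N := by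
  rcases subsingleton_or_nontrivial N with hN | hN
  · exact Module.Free.of_subsingleton A N
  have h1 := ModuleCat.projectiveDimension_quotient_eq_add_length_of_isWeaklyRegular.{u}
    (ModuleCat.of A N) ys hys hmem
  have h2 : HasProjectiveDimensionLE
      (ModuleCat.of A (N ⧸ Ideal.ofList ys • (⊤ : Submodule A N))) rs.length :=
    hasProjectiveDimensionLE_of_isFiniteLength rs.length
      (hasProjectiveDimensionLE_residue rs hrs hm) hfl
  rw [← projectiveDimension_le_iff] at h2
  have h3 : projectiveDimension (ModuleCat.of A N) ≤ ((0 : ℕ) : WithBot ℕ∞) := by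
    have h4 : projectiveDimension (ModuleCat.of A N) + (ys.length : WithBot ℕ∞) ≤
        ((0 : ℕ) : WithBot ℕ∞) + (ys.length : WithBot ℕ∞) := by
      rw [← h1]
      refine h2.trans ?_
      simp only [Nat.cast_zero, zero_add]
      exact_mod_cast hlen
    exact (ENat.WithBot.add_le_add_natCast_right_iff).mp h4
  have h5 : HasProjectiveDimensionLE (ModuleCat.of A N) 0 := (projectiveDimension_le_iff _ 0).mp h3
  have h6 : CategoryTheory.Projective (ModuleCat.of A N) :=
    projective_iff_hasProjectiveDimensionLT_one.mpr h5
  have h7 : Module.Projective A N := (IsProjective.iff_projective (R := A) N).mpr h6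
  exact Module.free_of_flat_of_isLocalRing

end Fermat.Agent.S57.helper897
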